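import Mathlib

/-!
# FF2 / R2 (MOONSHOT S19, finding #1637): orders in function algebras, tensor-free dialect

`V` an additive commutative group (finite in the applications), `B` a commutative `W`-algebra.
The algebra `V → B` of `B`-valued functions carries the "group-scheme" structure maps

* `deltaHom f = fun (v, w) => f (v + w)` (comultiplication, with values in `V × V → B`),
* `epsHom f = f 0` (counit), `negHom f = fun v => f (-v)` (antipode).

For a `W`-subalgebra `H` of `V → B`, `prodAlg H` is the `W`-subalgebra of `V × V → B` generated by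
the functions `h ∘ fst` and `h ∘ snd`, `h ∈ H` (as a module: the span of the products
`(v, w) ↦ h₁ v * h₂ w`, the image of `H ⊗ H`), and `H` is **`Δ`-stable** if `deltaHom h ∈ prodAlg H`
for all `h ∈ H`.

* `isDeltaStable_adjoin` : `Δ`-stability can be checked on algebra generators;
* `IsDeltaStable.sSup` : a supremum of `Δ`-stable subalgebras is `Δ`-stable, hence
* `largestDeltaStable O` : the largest `Δ`-stable subalgebra contained in a subalgebra `O`
  (lead's `H*`, (R1)(i)); it is stable under the antipode (`negHom_largestDeltaStable_le`).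
-/

set_option autoImplicit false
set_option linter.unusedSectionVars false

namespace Fermat.Agent.FF2.R2

variable (W B : Type*) [CommRing W] [CommRing B] [Algebra W B]

/-- Precomposition with a map, as an algebra homomorphism of function algebras. -/
def compHom {X Y : Type*} (φ : X → Y) : (Y → B) →ₐ[W] (X → B) :=
  AlgHom.pi (fun x => Pi.evalAlgHom W (fun _ => B) (φ x))

@[simp] theorem compHom_apply {X Y : Type*} (φ : X → Y) (f : Y → B) (x : X) :
    compHom W B φ f x = f (φ x) := rfl

theorem compHom_comp {X Y Z : Type*} (φ : X → Y) (ψ : Y → Z) :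
    (compHom W B φ).comp (compHom W B ψ) = compHom W B (ψ ∘ φ) := rfl

variable (V : Type*) [AddCommGroup V]

/-- `f ↦ f ∘ fst`. -/
def fstHom : (V → B) →ₐ[W] (V × V → B) := compHom W B Prod.fst

/-- `f ↦ f ∘ snd`. -/
def sndHom : (V → B) →ₐ[W] (V × V → B) := compHom W B Prod.snd

/-- The comultiplication `f ↦ fun (v, w) => f (v + w)`. -/
def deltaHom : (V → B) →ₐ[W] (V × V → B) := compHom W B (fun p : V × V => p.1 + p.2)

/-- The counit `f ↦ f 0`. -/
def epsHom : (V → B) →ₐ[W] B := Pi.evalAlgHom W (fun _ => B) 0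

/-- The antipode `f ↦ fun v => f (-v)`. -/
def negHom : (V → B) →ₐ[W] (V → B) := compHom W B (fun v : V => -v)

/-- The flip of `V × V`. -/
def swapHom : (V × V → B) →ₐ[W] (V × V → B) := compHom W B (Prod.swap : V × V → V × V)

/-- `(v, w) ↦ (-v, -w)`. -/
def negHom₂ : (V × V → B) →ₐ[W] (V × V → B) := compHom W B (fun p : V × V => (-p.1, -p.2))

variable {W B V}

@[simp] theorem fstHom_apply (f : V → B) (p : V × V) : fstHom W B V f p = f p.1 := rfl
@[simp] theorem sndHom_apply (f : V → B) (p : V × V) : sndHom W B V f p = f p.2 := rfl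
@[simp] theorem deltaHom_apply (f : V → B) (p : V × V) : deltaHom W B V f p = f (p.1 + p.2) := rfl
@[simp] theorem epsHom_apply (f : V → B) : epsHom W B V f = f 0 := rfl
@[simp] theorem negHom_apply (f : V → B) (v : V) : negHom W B V f v = f (-v) := rfl

/-- The subalgebra of `V × V → B` generated by `H ∘ fst` and `H ∘ snd` (the image of `H ⊗ H`). -/
def prodAlg (H : Subalgebra W (V → B)) : Subalgebra W (V × V → B) :=
  H.map (fstHom W B V) ⊔ H.map (sndHom W B V)

theorem prodAlg_mono {H₁ H₂ : Subalgebra W (V → B)} (h : H₁ ≤ H₂) : prodAlg H₁ ≤ prodAlg H₂ :=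
  sup_le_sup (Subalgebra.map_mono h) (Subalgebra.map_mono h)

theorem fstHom_mem_prodAlg {H : Subalgebra W (V → B)} {h : V → B} (hh : h ∈ H) :
    fstHom W B V h ∈ prodAlg H :=
  (le_sup_left : H.map (fstHom W B V) ≤ prodAlg H) ⟨h, hh, rfl⟩

theorem sndHom_mem_prodAlg {H : Subalgebra W (V → B)} {h : V → B} (hh : h ∈ H) :
    sndHom W B V h ∈ prodAlg H :=
  (le_sup_right : H.map (sndHom W B V) ≤ prodAlg H) ⟨h, hh, rfl⟩

/-- The elementary products `(v, w) ↦ h₁ v * h₂ w` lie in `prodAlg H`. -/
theorem mul_mem_prodAlg {H : Subalgebra W (V → B)} {h₁ h₂ : V → B} (hh₁ : h₁ ∈ H)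
    (hh₂ : h₂ ∈ H) : (fun p : V × V => h₁ p.1 * h₂ p.2) ∈ prodAlg H :=
  (prodAlg H).mul_mem (fstHom_mem_prodAlg hh₁) (sndHom_mem_prodAlg hh₂)

/-- As a module, `prodAlg H` is the span of the elementary products. -/
theorem prodAlg_toSubmodule (H : Subalgebra W (V → B)) :
    Subalgebra.toSubmodule (prodAlg H) =
      Submodule.span W {F | ∃ h₁ ∈ H, ∃ h₂ ∈ H, F = fun p : V × V => h₁ p.1 * h₂ p.2} := by
  unfold prodAlg
  rw [← Subalgebra.mul_toSubmodule]
  apply le_antisymm
  · rw [Submodule.mul_le]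
    rintro _ ⟨h₁, hh₁, rfl⟩ _ ⟨h₂, hh₂, rfl⟩
    exact Submodule.subset_span ⟨h₁, hh₁, h₂, hh₂, rfl⟩
  · rw [Submodule.span_le]
    rintro _ ⟨h₁, hh₁, h₂, hh₂, rfl⟩
    exact Submodule.mul_mem_mul (show fstHom W B V h₁ ∈ _ from ⟨h₁, hh₁, rfl⟩)
      (show sndHom W B V h₂ ∈ _ from ⟨h₂, hh₂, rfl⟩)

/-- **`Δ`-stable subalgebras**: `Δ(H) ⊆ H ⊗ H`, tensor-free. -/
def IsDeltaStable (H : Subalgebra W (V → B)) : Prop :=
  ∀ h ∈ H, deltaHom W B V h ∈ prodAlg H

theorem isDeltaStable_iff_le {H : Subalgebra W (V → B)} :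
    IsDeltaStable H ↔ H ≤ (prodAlg H).comap (deltaHom W B V) := Iff.rfl

/-- `Δ`-stability can be checked on generators. -/
theorem isDeltaStable_adjoin {s : Set (V → B)}
    (h : ∀ f ∈ s, deltaHom W B V f ∈ prodAlg (Algebra.adjoin W s)) :
    IsDeltaStable (Algebra.adjoin W s) := by
  rw [isDeltaStable_iff_le]
  exact Algebra.adjoin_le h

theorem isDeltaStable_bot : IsDeltaStable (⊥ : Subalgebra W (V → B)) := by
  intro h hh
  obtain ⟨r, rfl⟩ := Algebra.mem_bot.mp hh
  rw [AlgHom.commutes]
  exact Subalgebra.algebraMap_mem _ r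

/-- A supremum of `Δ`-stable subalgebras is `Δ`-stable. -/
theorem IsDeltaStable.sSup {S : Set (Subalgebra W (V → B))} (hS : ∀ H ∈ S, IsDeltaStable H) :
    IsDeltaStable (sSup S) := by
  rw [isDeltaStable_iff_le]
  apply sSup_le
  intro H hH h hh
  exact prodAlg_mono (le_sSup hH) (hS H hH h hh)

theorem IsDeltaStable.sup {H₁ H₂ : Subalgebra W (V → B)} (h₁ : IsDeltaStable H₁)
    (h₂ : IsDeltaStable H₂) : IsDeltaStable (H₁ ⊔ H₂) := by
  rw [← sSup_pair]
  apply IsDeltaStable.sSup
  rintro H (rfl | rfl)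
  · exact h₁
  · exact h₂

/-- **The largest `Δ`-stable subalgebra contained in `O`** (lead's `H*`). -/
def largestDeltaStable (O : Subalgebra W (V → B)) : Subalgebra W (V → B) :=
  sSup {H | H ≤ O ∧ IsDeltaStable H}

theorem largestDeltaStable_le (O : Subalgebra W (V → B)) : largestDeltaStable O ≤ O :=
  sSup_le fun _ hH => hH.1

theorem isDeltaStable_largestDeltaStable (O : Subalgebra W (V → B)) :
    IsDeltaStable (largestDeltaStable O) :=
  IsDeltaStable.sSup fun _ hH => hH.2

theorem le_largestDeltaStable {O H : Subalgebra W (V → B)} (hHO : H ≤ O)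
    (hH : IsDeltaStable H) : H ≤ largestDeltaStable O :=
  le_sSup ⟨hHO, hH⟩

/-! ### The counit -/

/-- `(ε ⊗ id) ∘ Δ = id`: evaluating `Δ f` along `{0} × V` gives back `f`. -/
theorem deltaHom_apply_zero_left (f : V → B) (v : V) : deltaHom W B V f (0, v) = f v := by
  rw [deltaHom_apply, zero_add]

theorem deltaHom_apply_zero_right (f : V → B) (v : V) : deltaHom W B V f (v, 0) = f v := by
  rw [deltaHom_apply, add_zero]

/-- `Δ` is cocommutative. -/
theorem swapHom_deltaHom (f : V → B) :
    swapHom W B V (deltaHom W B V f) = deltaHom W B V f := by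
  funext p
  change f (p.2 + p.1) = f (p.1 + p.2)
  rw [add_comm]

/-! ### The antipode -/

theorem deltaHom_negHom (f : V → B) :
    deltaHom W B V (negHom W B V f) = negHom₂ W B V (deltaHom W B V f) := by
  funext p
  change f (-(p.1 + p.2)) = f (-p.1 + -p.2)
  rw [neg_add]

theorem negHom₂_fstHom (f : V → B) :
    negHom₂ W B V (fstHom W B V f) = fstHom W B V (negHom W B V f) := rfl

theorem negHom₂_sndHom (f : V → B) :
    negHom₂ W B V (sndHom W B V f) = sndHom W B V (negHom W B V f) := rfl

theorem map_negHom₂_prodAlg (H : Subalgebra W (V → B)) :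
    (prodAlg H).map (negHom₂ W B V) = prodAlg (H.map (negHom W B V)) := by
  unfold prodAlg
  rw [Algebra.map_sup, Subalgebra.map_map, Subalgebra.map_map, Subalgebra.map_map,
    Subalgebra.map_map]
  rfl

/-- The image of a `Δ`-stable subalgebra under the antipode is `Δ`-stable. -/
theorem IsDeltaStable.map_negHom {H : Subalgebra W (V → B)} (hH : IsDeltaStable H) :
    IsDeltaStable (H.map (negHom W B V)) := by
  rintro _ ⟨h, hh, rfl⟩
  have h1 : deltaHom W B V (negHom W B V h) ∈ (prodAlg H).map (negHom₂ W B V) := by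
    rw [deltaHom_negHom]
    exact ⟨_, hH h hh, rfl⟩
  rw [map_negHom₂_prodAlg] at h1
  exact h1

theorem negHom_negHom (f : V → B) : negHom W B V (negHom W B V f) = f := by
  funext v
  change f (- -v) = f v
  rw [neg_neg]

theorem map_negHom_map_negHom (H : Subalgebra W (V → B)) :
    (H.map (negHom W B V)).map (negHom W B V) = H := by
  ext f
  constructor
  · rintro ⟨_, ⟨h, hh, rfl⟩, rfl⟩
    have h1 : negHom W B V (negHom W B V h) = h := negHom_negHom h
    have h2 : h ∈ H := hh
    exact h1.symm ▸ h2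
  · intro hf
    exact ⟨negHom W B V f, ⟨f, hf, rfl⟩, negHom_negHom (W := W) f⟩

/-- `H ⊔ S(H)` is `Δ`-stable when `H` is: stability under the antipode costs nothing. -/
theorem IsDeltaStable.sup_map_negHom {H : Subalgebra W (V → B)} (hH : IsDeltaStable H) :
    IsDeltaStable (H ⊔ H.map (negHom W B V)) :=
  hH.sup hH.map_negHom

/-- `H ⊔ S(H)` is stable under the antipode. -/
theorem map_negHom_sup_map_negHom (H : Subalgebra W (V → B)) :
    (H ⊔ H.map (negHom W B V)).map (negHom W B V) = H ⊔ H.map (negHom W B V) := by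
  rw [Algebra.map_sup, map_negHom_map_negHom, sup_comm]

/-- `H*` is stable under the antipode as soon as `O` is. -/
theorem negHom_largestDeltaStable_le {O : Subalgebra W (V → B)}
    (hO : O.map (negHom W B V) ≤ O) :
    (largestDeltaStable O).map (negHom W B V) ≤ largestDeltaStable O :=
  le_largestDeltaStable ((Subalgebra.map_mono (largestDeltaStable_le O)).trans hO)
    (isDeltaStable_largestDeltaStable O).map_negHom

end Fermat.Agent.FF2.R2
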