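import Mathlib

/-!
# FF2 / R2 (MOONSHOT S19, finding #1637): finite Stone–Weierstrass

`X` a finite set, `L` a field.  A subalgebra `H` (over any base ring `W`) of the function algebra
`X → L` which separates the points of `X` spans `X → L` over `L`.  This is the "full rank" part of
the chart lemma: the order generated by the fibre idempotents and the coordinate functions
separates points as soon as the coordinates are injective on every fibre.
-/

set_option autoImplicit false
set_option linter.unusedSectionVars false

namespace Fermat.Agent.FF2.R2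

open Finset

variable {W L X : Type*} [CommRing W] [Field L] [Algebra W L]

/-- The `L`-span of a `W`-subalgebra of `X → L` is the `L`-subalgebra it generates. -/
theorem adjoin_toSubmodule_eq_span (H : Subalgebra W (X → L)) :
    Subalgebra.toSubmodule (Algebra.adjoin L (H : Set (X → L))) =
      Submodule.span L (H : Set (X → L)) := by
  rw [Algebra.adjoin_eq_span]
  congr 1
  change ((Submonoid.closure ((H.toSubmonoid : Submonoid (X → L)) : Set (X → L)) :
    Submonoid (X → L)) : Set (X → L)) = _
  rw [Submonoid.closure_eq]
  rfl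

/-- A separating pair gives a function in the `L`-algebra generated by `H` with value `1` at `x`
and `0` at `y`. -/
theorem exists_mem_adjoin_one_zero (H : Subalgebra W (X → L)) {x y : X}
    (h : ∃ f ∈ H, f x ≠ f y) :
    ∃ u ∈ Algebra.adjoin L (H : Set (X → L)), u x = 1 ∧ u y = 0 := by
  obtain ⟨f, hf, hxy⟩ := h
  have hne : f x - f y ≠ 0 := sub_ne_zero.mpr hxy
  refine ⟨(f x - f y)⁻¹ • (f - algebraMap L (X → L) (f y)), ?_, ?_, ?_⟩
  · exact Subalgebra.smul_mem _ (Subalgebra.sub_mem _ (Algebra.subset_adjoin hf)
      (Subalgebra.algebraMap_mem _ _)) _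
  · simp [Pi.smul_apply, Pi.sub_apply, inv_mul_cancel₀ hne]
  · simp [Pi.smul_apply, Pi.sub_apply]

variable [Finite X]

/-- **Finite Stone–Weierstrass**: the indicator functions lie in the `L`-algebra generated by a
separating subalgebra. -/
theorem single_mem_adjoin_of_separates [DecidableEq X] (H : Subalgebra W (X → L))
    (hsep : ∀ x y : X, x ≠ y → ∃ f ∈ H, f x ≠ f y) (x : X) :
    (Pi.single x (1 : L) : X → L) ∈ Algebra.adjoin L (H : Set (X → L)) := by
  classical
  cases nonempty_fintype X
  have key : ∀ y : X, ∃ u ∈ Algebra.adjoin L (H : Set (X → L)), u x = 1 ∧ (y ≠ x → u y = 0) := by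
    intro y
    by_cases hyx : y = x
    · exact ⟨1, Subalgebra.one_mem _, rfl, fun h => absurd hyx h⟩
    · obtain ⟨u, hu, h1, h0⟩ := exists_mem_adjoin_one_zero H (hsep x y (Ne.symm hyx))
      exact ⟨u, hu, h1, fun _ => h0⟩
  choose u hu hu1 hu0 using key
  have hprod : (∏ y : X, u y) ∈ Algebra.adjoin L (H : Set (X → L)) :=
    Subalgebra.prod_mem _ fun y _ => hu y
  have heq : (∏ y : X, u y) = (Pi.single x (1 : L) : X → L) := by
    funext z
    rw [Finset.prod_apply]
    by_cases hzx : z = x
    · subst hzx
      rw [Pi.single_eq_same]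
      exact Finset.prod_eq_one fun y _ => hu1 y
    · rw [Pi.single_eq_of_ne hzx]
      exact Finset.prod_eq_zero (Finset.mem_univ z) (hu0 z hzx)
  rw [← heq]
  exact hprod

/-- **Finite Stone–Weierstrass**: a separating subalgebra generates `X → L` as an `L`-algebra. -/
theorem adjoin_eq_top_of_separates (H : Subalgebra W (X → L))
    (hsep : ∀ x y : X, x ≠ y → ∃ f ∈ H, f x ≠ f y) :
    Algebra.adjoin L (H : Set (X → L)) = ⊤ := by
  classical
  cases nonempty_fintype X
  rw [eq_top_iff]
  intro g _
  have hg : g = ∑ x : X, g x • (Pi.single x (1 : L) : X → L) := by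
    funext z
    rw [Finset.sum_apply]
    simp [Pi.single_apply]
  rw [hg]
  exact Subalgebra.sum_mem _ fun x _ =>
    Subalgebra.smul_mem _ (single_mem_adjoin_of_separates H hsep x) _

/-- **Finite Stone–Weierstrass, span form**: a separating `W`-subalgebra of `X → L` has full
`L`-span. -/
theorem span_eq_top_of_separates (H : Subalgebra W (X → L))
    (hsep : ∀ x y : X, x ≠ y → ∃ f ∈ H, f x ≠ f y) :
    Submodule.span L (H : Set (X → L)) = ⊤ := by
  rw [← adjoin_toSubmodule_eq_span, adjoin_eq_top_of_separates H hsep]
  rfl

/-- The converse: full span implies separation. -/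
theorem separates_of_span_eq_top (H : Subalgebra W (X → L))
    (h : Submodule.span L (H : Set (X → L)) = ⊤) (x y : X) (hxy : x ≠ y) :
    ∃ f ∈ H, f x ≠ f y := by
  classical
  by_contra hcon
  simp only [not_exists, not_and, not_not, ne_eq] at hcon
  have hle : Submodule.span L (H : Set (X → L)) ≤
      LinearMap.ker ((LinearMap.proj x : (X → L) →ₗ[L] L) - LinearMap.proj y) := by
    rw [Submodule.span_le]
    intro f hf
    simp only [SetLike.mem_coe, LinearMap.mem_ker, LinearMap.sub_apply, LinearMap.proj_apply]
    exact sub_eq_zero.mpr (hcon f hf)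
  rw [h] at hle
  have := hle (Submodule.mem_top : (Pi.single x (1 : L) : X → L) ∈ ⊤)
  simp only [LinearMap.mem_ker, LinearMap.sub_apply, LinearMap.proj_apply, Pi.single_eq_same,
    Pi.single_eq_of_ne (Ne.symm hxy), sub_zero] at this
  exact one_ne_zero this

end Fermat.Agent.FF2.R2
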