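import Fermat.Agent.FF2.R2.ChartPoly

/-!
# FF2 / R2 (MOONSHOT S19, finding #1637, node (G5-A)): translates of the chart

Abstract bookkeeping between the output of (G4) and the input of the chart lemma.

* `J` an abelian group (`Pic⁰`), `J0 ≤ J` a subgroup (the rational part of `ker red`) with chart
  coordinates `x : J0 → ι → B`;
* an addition congruence on `J0`: for every `n` there are polynomials `P n i` over `W` with
  `x (u + u' + c0) i ≡ P n i (x u, x u')  mod ϖ ^ n` (`c0 ∈ J0` a fixed constant; `c0 = 0` is the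
  plain addition law);
* a finite group `V` with `j : V →+ J`, `π : V →+ Γ` and lifts `c : Γ → J` such that
  `j v - c (π v) ∈ J0` and the constants `c γ + c γ' - c (γ + γ') - 2 c0 ∈ J0` have coordinates in
  `W` (they are rational).

Then the translated coordinates `ξ v := x (j v - c (π v))` satisfy the polynomial-truncation
hypothesis of `chartAlg_isDeltaStable`, with `P (P (X, a), Y)`.
-/

set_option autoImplicit false
set_option linter.unusedSectionVars false

namespace Fermat.Agent.FF2.R2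

open MvPolynomial

variable {W B : Type*} [CommRing W] [CommRing B] [Algebra W B]

/-- Polynomial congruence: congruent arguments give congruent values. -/
theorem aeval_sub_aeval_mem {σ : Type*} (I : Ideal B) (P : MvPolynomial σ W) {y y' : σ → B}
    (h : ∀ k, y k - y' k ∈ I) : aeval y P - aeval y' P ∈ I := by
  rw [← Ideal.Quotient.eq_zero_iff_mem, map_sub, sub_eq_zero]
  have e1 : Ideal.Quotient.mk I (aeval y P) =
      aeval (fun k => Ideal.Quotient.mk I (y k)) P :=
    comp_aeval_apply (f := y) (Ideal.Quotient.mkₐ W I) P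
  have e2 : Ideal.Quotient.mk I (aeval y' P) =
      aeval (fun k => Ideal.Quotient.mk I (y' k)) P :=
    comp_aeval_apply (f := y') (Ideal.Quotient.mkₐ W I) P
  rw [e1, e2]
  congr 2
  funext k
  exact (Ideal.Quotient.eq).mpr (h k)

/-- `∃ b, z = ϖ ^ n • b` as membership in a principal ideal. -/
theorem exists_eq_pow_smul_iff (ϖ : W) (n : ℕ) (z : B) :
    (∃ b : B, z = ϖ ^ n • b) ↔ z ∈ Ideal.span {algebraMap W B (ϖ ^ n)} := by
  rw [Ideal.mem_span_singleton']
  constructor
  · rintro ⟨b, rfl⟩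
    exact ⟨b, by rw [Algebra.smul_def, mul_comm]⟩
  · rintro ⟨b, rfl⟩
    exact ⟨b, by rw [Algebra.smul_def, mul_comm]⟩

variable {J V Γ ι : Type*} [AddCommGroup J] [AddCommGroup V] [AddCommGroup Γ]

/-- The translated chart coordinates `ξ v = x (j v - c (π v))`. -/
def translateCoord (J0 : AddSubgroup J) (x : J0 → ι → B) (j : V →+ J) (π : V →+ Γ) (c : Γ → J)
    (h1 : ∀ v, j v - c (π v) ∈ J0) : V → ι → B :=
  fun v => x ⟨j v - c (π v), h1 v⟩

/-- The substituted polynomial `P i (P (X, a), Y)`. -/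
noncomputable def substPoly (P : ι → MvPolynomial (ι ⊕ ι) W) (a : ι → W) (i : ι) :
    MvPolynomial (ι ⊕ ι) W :=
  bind₁ (Sum.elim
    (fun k => bind₁ (Sum.elim (fun k' => X (Sum.inl k')) (fun k' => C (a k'))) (P k))
    (fun k => X (Sum.inr k))) (P i)

theorem aeval_substPoly (P : ι → MvPolynomial (ι ⊕ ι) W) (a : ι → W) (i : ι) (y y' : ι → B) :
    aeval (Sum.elim y y') (substPoly P a i) =
      aeval (Sum.elim
        (fun k => aeval (Sum.elim y (fun k' => algebraMap W B (a k'))) (P k)) y') (P i) := by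
  unfold substPoly
  rw [aeval_bind₁]
  congr 2
  funext s
  rcases s with k | k
  · simp only [Sum.elim_inl]
    rw [aeval_bind₁]
    congr 2
    funext s'
    rcases s' with k' | k'
    · simp only [Sum.elim_inl, aeval_X]
    · simp only [Sum.elim_inr, aeval_C]
  · simp only [Sum.elim_inr, aeval_X]

/-- **(G5-A), general form with a constant `c0`**: the translated coordinates satisfy the
polynomial-truncation hypothesis of the chart lemma. -/
theorem translateCoord_hP {ϖ : W} (J0 : AddSubgroup J) (x : J0 → ι → B) (j : V →+ J)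
    (π : V →+ Γ) (c : Γ → J) (c0 : J0) (h1 : ∀ v, j v - c (π v) ∈ J0)
    (a : Γ → Γ → ι → W)
    (h2 : ∀ γ γ', ∃ h : c γ + c γ' - c (γ + γ') - 2 • (c0 : J) ∈ J0,
      ∀ k, x ⟨_, h⟩ k = algebraMap W B (a γ γ' k))
    (hadd : ∀ (n : ℕ) (i : ι), ∃ P : MvPolynomial (ι ⊕ ι) W, ∀ u u' : J0,
      ∃ b : B, x (u + u' + c0) i - aeval (Sum.elim (x u) (x u')) P = ϖ ^ n • b)
    (n : ℕ) (γ γ' : Γ) (i : ι) :
    ∃ P : MvPolynomial (ι ⊕ ι) W, ∀ v v' : V, π v = γ → π v' = γ' →
      ∃ b : B, translateCoord J0 x j π c h1 (v + v') i -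
        aeval (Sum.elim (translateCoord J0 x j π c h1 v) (translateCoord J0 x j π c h1 v')) P
          = ϖ ^ n • b := by
  choose P hP using hadd n
  refine ⟨substPoly P (a γ γ') i, ?_⟩
  rintro v v' rfl rfl
  obtain ⟨hw, hxw⟩ := h2 (π v) (π v')
  set u : J0 := ⟨j v - c (π v), h1 v⟩ with hu
  set u' : J0 := ⟨j v' - c (π v'), h1 v'⟩ with hu'
  set w : J0 := ⟨c (π v) + c (π v') - c (π v + π v') - 2 • (c0 : J), hw⟩ with hw'
  set m : J0 := u + w + c0 with hm
  have hsum : (⟨j (v + v') - c (π (v + v')), h1 (v + v')⟩ : J0) = m + u' + c0 := by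
    apply Subtype.ext
    simp only [hm, hu, hu', hw', AddSubgroup.coe_add, map_add]
    abel
  have hξ : translateCoord J0 x j π c h1 (v + v') = x (m + u' + c0) := by
    unfold translateCoord
    rw [hsum]
  have hξv : translateCoord J0 x j π c h1 v = x u := rfl
  have hξv' : translateCoord J0 x j π c h1 v' = x u' := rfl
  rw [hξ, hξv, hξv', aeval_substPoly, exists_eq_pow_smul_iff]
  set I : Ideal B := Ideal.span {algebraMap W B (ϖ ^ n)} with hI
  -- first step: `x m ≡ P (x u, a)`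
  have hxw' : x w = fun k' => algebraMap W B (a (π v) (π v') k') := funext hxw
  have step1 : ∀ k, x m k -
      aeval (Sum.elim (x u) (fun k' => algebraMap W B (a (π v) (π v') k'))) (P k) ∈ I := by
    intro k
    rw [← exists_eq_pow_smul_iff, ← hxw']
    exact hP k u w
  -- second step: `x (m + u' + c0) ≡ P (x m, x u')`
  have step2 : x (m + u' + c0) i - aeval (Sum.elim (x m) (x u')) (P i) ∈ I := by
    rw [← exists_eq_pow_smul_iff]
    exact hP i m u'
  have step3 : aeval (Sum.elim (x m) (x u')) (P i) -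
      aeval (Sum.elim (fun k => aeval (Sum.elim (x u)
        (fun k' => algebraMap W B (a (π v) (π v') k'))) (P k)) (x u')) (P i) ∈ I := by
    apply aeval_sub_aeval_mem
    rintro (k | k)
    · simpa only [Sum.elim_inl] using step1 k
    · simp only [Sum.elim_inr, sub_self, Submodule.zero_mem]
  have := I.add_mem step2 step3
  rwa [sub_add_sub_cancel] at this

/-- **(G5-A)**: the chart order of the translated coordinates is `Δ`-stable. -/
theorem translateCoord_isDeltaStable [IsNoetherianRing W] [Module.Finite W B] [Finite V]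
    [Finite Γ] {ϖ : W} (hϖ : ϖ ∈ Ideal.jacobson (⊥ : Ideal W))
    (J0 : AddSubgroup J) (x : J0 → ι → B) (j : V →+ J)
    (π : V →+ Γ) (c : Γ → J) (c0 : J0) (h1 : ∀ v, j v - c (π v) ∈ J0)
    (a : Γ → Γ → ι → W)
    (h2 : ∀ γ γ', ∃ h : c γ + c γ' - c (γ + γ') - 2 • (c0 : J) ∈ J0,
      ∀ k, x ⟨_, h⟩ k = algebraMap W B (a γ γ' k))
    (hadd : ∀ (n : ℕ) (i : ι), ∃ P : MvPolynomial (ι ⊕ ι) W, ∀ u u' : J0,
      ∃ b : B, x (u + u' + c0) i - aeval (Sum.elim (x u) (x u')) P = ϖ ^ n • b) :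
    IsDeltaStable (chartAlg W π (translateCoord J0 x j π c h1)) :=
  chartAlg_isDeltaStable hϖ π _ (translateCoord_hP J0 x j π c c0 h1 a h2 hadd)

/-- **(G5-A), plain addition law** (`c0 = 0`). -/
theorem translateCoord_isDeltaStable_of_add [IsNoetherianRing W] [Module.Finite W B] [Finite V]
    [Finite Γ] {ϖ : W} (hϖ : ϖ ∈ Ideal.jacobson (⊥ : Ideal W))
    (J0 : AddSubgroup J) (x : J0 → ι → B) (j : V →+ J)
    (π : V →+ Γ) (c : Γ → J) (h1 : ∀ v, j v - c (π v) ∈ J0)
    (a : Γ → Γ → ι → W)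
    (h2 : ∀ γ γ', ∃ h : c γ + c γ' - c (γ + γ') ∈ J0,
      ∀ k, x ⟨_, h⟩ k = algebraMap W B (a γ γ' k))
    (hadd : ∀ (n : ℕ) (i : ι), ∃ P : MvPolynomial (ι ⊕ ι) W, ∀ u u' : J0,
      ∃ b : B, x (u + u') i - aeval (Sum.elim (x u) (x u')) P = ϖ ^ n • b) :
    IsDeltaStable (chartAlg W π (translateCoord J0 x j π c h1)) := by
  refine translateCoord_isDeltaStable hϖ J0 x j π c 0 h1 a ?_ ?_
  · intro γ γ'
    obtain ⟨h, hx⟩ := h2 γ γ'
    have e : c γ + c γ' - c (γ + γ') - 2 • ((0 : J0) : J) = c γ + c γ' - c (γ + γ') := by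
      rw [AddSubgroup.coe_zero, smul_zero, sub_zero]
    have h' : c γ + c γ' - c (γ + γ') - 2 • ((0 : J0) : J) ∈ J0 := by rw [e]; exact h
    refine ⟨h', fun k => ?_⟩
    rw [← hx k]
    have e' : (⟨_, h'⟩ : J0) = ⟨_, h⟩ := Subtype.ext e
    rw [e']
  · intro n i
    obtain ⟨P, hP⟩ := hadd n i
    refine ⟨P, fun u u' => ?_⟩
    rw [add_zero]
    exact hP u u'

/-- The translated coordinates are injective on the fibres of `π`. -/
theorem translateCoord_injective (J0 : AddSubgroup J) (x : J0 → ι → B) (j : V →+ J)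
    (π : V →+ Γ) (c : Γ → J) (h1 : ∀ v, j v - c (π v) ∈ J0)
    (hx : Function.Injective x) (hj : Function.Injective j) (v w : V) (hπ : π v = π w)
    (h : translateCoord J0 x j π c h1 v = translateCoord J0 x j π c h1 w) : v = w := by
  have h3 := congrArg Subtype.val (hx h)
  simp only [hπ, sub_left_inj] at h3
  exact hj h3

/-- Equivariance of the translated coordinates: an automorphism `τ` acting compatibly on `J`,
`V`, `B`, trivially on `Γ` and fixing the lifts `c γ`. -/
theorem translateCoord_equivariant (J0 : AddSubgroup J) (x : J0 → ι → B) (j : V →+ J)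
    (π : V →+ Γ) (c : Γ → J) (h1 : ∀ v, j v - c (π v) ∈ J0)
    (τJ : J →+ J) (τV : V → V) (τB : B → B)
    (hτJ0 : ∀ u ∈ J0, τJ u ∈ J0)
    (hτx : ∀ (u : J0) (k : ι), x ⟨τJ u, hτJ0 u u.2⟩ k = τB (x u k))
    (hτj : ∀ v, j (τV v) = τJ (j v)) (hτπ : ∀ v, π (τV v) = π v) (hτc : ∀ γ, τJ (c γ) = c γ)
    (v : V) (k : ι) :
    translateCoord J0 x j π c h1 (τV v) k = τB (translateCoord J0 x j π c h1 v k) := by
  unfold translateCoord
  rw [← hτx]
  have h3 : (⟨j (τV v) - c (π (τV v)), h1 (τV v)⟩ : J0) =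
      ⟨τJ ((⟨j v - c (π v), h1 v⟩ : J0) : J), hτJ0 _ (h1 v)⟩ := by
    apply Subtype.ext
    simp only [hτj, hτπ, map_sub, hτc]
  rw [h3]

end Fermat.Agent.FF2.R2
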