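import Fermat.Agent.FF2.R2.ChartRank
import Fermat.Agent.FF2.R2.Translate

/-!
# FF2 / R2 (MOONSHOT S19, finding #1637): the chart lemma with values in an algebraic closure

Consumer form of the chart lemma for variant (β): `W` a Noetherian integrally closed domain
(`Λ_n`, a DVR) with fraction field `K`, `Ω` an algebraic extension of `K` of characteristic zero
(`Ω = ℚ̄`).  The coordinates `ξ : V → ι → Ω` and the error terms `b` are only required to be
**integral over `W`** (for `W = Λ_n`: to lie in the valuation ring of `ℚ̄`).  The finite level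
`B` needed by the Krull closure argument — the integral closure of `W` in the finite extension
`K(ξ)` — is constructed inside the proof.
-/

set_option autoImplicit false
set_option linter.unusedSectionVars false

namespace Fermat.Agent.FF2.R2

open MvPolynomial IntermediateField

variable {W Ω V Γ ι : Type*} [CommRing W] [IsDomain W] [IsNoetherianRing W]
  [IsIntegrallyClosed W] [Field Ω] [Algebra W Ω] [AddCommGroup V] [AddCommGroup Γ]

/-- **The chart lemma over an algebraic closure**: integral coordinates, integral error terms. -/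
theorem chartAlg_isDeltaStable_of_isIntegral [Finite V] [Finite Γ] [Finite ι]
    (K : Type*) [Field K] [Algebra W K] [IsFractionRing W K] [CharZero K] [Algebra K Ω]
    [IsScalarTower W K Ω] [Algebra.IsAlgebraic K Ω]
    {ϖ : W} (hϖ : ϖ ∈ Ideal.jacobson (⊥ : Ideal W)) (hϖ0 : ϖ ≠ 0)
    (π : V →+ Γ) (ξ : V → ι → Ω) (hξ : ∀ v i, IsIntegral W (ξ v i))
    (hP : ∀ (n : ℕ) (γ γ' : Γ) (i : ι), ∃ P : MvPolynomial (ι ⊕ ι) W,
      ∀ v v' : V, π v = γ → π v' = γ' →
        ∃ b : Ω, IsIntegral W b ∧
          ξ (v + v') i - aeval (Sum.elim (ξ v) (ξ v')) P = ϖ ^ n • b) :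
    IsDeltaStable (chartAlg W π ξ) ∧ (Subalgebra.toSubmodule (chartAlg W π ξ)).FG := by
  classical
  have hinjW : Function.Injective (algebraMap W Ω) := by
    rw [IsScalarTower.algebraMap_eq W K Ω]
    exact (algebraMap K Ω).injective.comp (IsFractionRing.injective W K)
  -- the finite level
  let S : Set Ω := Set.range (fun p : V × ι => ξ p.1 p.2)
  have : Finite S := Set.finite_range _
  let L : IntermediateField K Ω := IntermediateField.adjoin K S
  have : FiniteDimensional K L :=
    IntermediateField.finiteDimensional_adjoin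
      (fun x _ => (Algebra.IsAlgebraic.isAlgebraic x).isIntegral)
  have : IsScalarTower W L Ω := IsScalarTower.of_algebraMap_eq (fun _ => rfl)
  have : Module.Finite W (integralClosure W L) :=
    IsIntegralClosure.finite W K L (integralClosure W L)
  have hmemL : ∀ v i, ξ v i ∈ L := fun v i =>
    IntermediateField.subset_adjoin K S ⟨(v, i), rfl⟩
  have hintL : ∀ (z : L), IsIntegral W (z : Ω) → IsIntegral W z := fun z hz =>
    (isIntegral_algebraMap_iff (algebraMap L Ω).injective).mp hz
  -- the coordinates at the finite level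
  let ξ' : V → ι → integralClosure W L :=
    fun v i => ⟨⟨ξ v i, hmemL v i⟩, hintL _ (hξ v i)⟩
  let φ : integralClosure W L →ₐ[W] Ω :=
    (IsScalarTower.toAlgHom W L Ω).comp (integralClosure W L).val
  have hφinj : Function.Injective φ := fun a b h =>
    Subtype.ext (Subtype.ext h)
  have hφξ : (fun v j => φ (ξ' v j)) = ξ := rfl
  have hP' : ∀ (n : ℕ) (γ γ' : Γ) (i : ι), ∃ P : MvPolynomial (ι ⊕ ι) W,
      ∀ v v' : V, π v = γ → π v' = γ' →
        ∃ b : integralClosure W L,
          ξ' (v + v') i - aeval (Sum.elim (ξ' v) (ξ' v')) P = ϖ ^ n • b := by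
    intro n γ γ' i
    obtain ⟨P, hPP⟩ := hP n γ γ' i
    refine ⟨P, fun v v' hv hv' => ?_⟩
    obtain ⟨b, hbint, hb⟩ := hPP v v' hv hv'
    -- the left-hand side is the image of an element of the finite level
    have hφaeval : φ (aeval (Sum.elim (ξ' v) (ξ' v')) P) =
        aeval (Sum.elim (ξ v) (ξ v')) P := by
      rw [comp_aeval_apply (f := Sum.elim (ξ' v) (ξ' v')) φ P]
      congr 2
      funext s
      rcases s with j | j <;> rfl
    set d : integralClosure W L := ξ' (v + v') i - aeval (Sum.elim (ξ' v) (ξ' v')) P with hd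
    have hφd : φ d = ϖ ^ n • b := by
      rw [hd, map_sub, hφaeval]
      exact hb
    have hne : algebraMap W Ω (ϖ ^ n) ≠ 0 := by
      rw [Ne, map_eq_zero_iff _ hinjW]
      exact pow_ne_zero n hϖ0
    -- `b` lies in `L`
    have hbL : b ∈ L := by
      have h1 : b = (algebraMap W Ω (ϖ ^ n))⁻¹ * φ d := by
        rw [hφd, Algebra.smul_def, inv_mul_cancel_left₀ hne]
      rw [h1]
      refine L.mul_mem (L.inv_mem ?_) (d : L).2
      have : algebraMap W Ω (ϖ ^ n) = ((algebraMap W L (ϖ ^ n) : L) : Ω) := rfl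
      rw [this]
      exact (algebraMap W L (ϖ ^ n)).2
    refine ⟨⟨⟨b, hbL⟩, hintL _ hbint⟩, ?_⟩
    apply hφinj
    rw [hφd]
    rfl
  constructor
  · have := chartAlg_isDeltaStable_of_map hϖ φ π ξ' hP'
    rwa [hφξ] at this
  · have := chartAlg_fg_of_map φ π ξ'
    rwa [hφξ] at this

/-- The chart lemma for coordinates with values in the integral closure `𝒪 = integralClosure W Ω`
(for `W = Λ_n`, `Ω = ℚ̄`: the valuation ring of `ℚ̄`), the congruences being taken in `𝒪`. -/
theorem chartAlg_isDeltaStable_of_integralClosure [Finite V] [Finite Γ] [Finite ι]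
    (K : Type*) [Field K] [Algebra W K] [IsFractionRing W K] [CharZero K] [Algebra K Ω]
    [IsScalarTower W K Ω] [Algebra.IsAlgebraic K Ω]
    {ϖ : W} (hϖ : ϖ ∈ Ideal.jacobson (⊥ : Ideal W)) (hϖ0 : ϖ ≠ 0)
    (π : V →+ Γ) (ξ : V → ι → integralClosure W Ω)
    (hP : ∀ (n : ℕ) (γ γ' : Γ) (i : ι), ∃ P : MvPolynomial (ι ⊕ ι) W,
      ∀ v v' : V, π v = γ → π v' = γ' →
        ∃ b : integralClosure W Ω,
          ξ (v + v') i - aeval (Sum.elim (ξ v) (ξ v')) P = ϖ ^ n • b) :
    IsDeltaStable (chartAlg W π (fun v i => ((ξ v i : integralClosure W Ω) : Ω))) ∧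
      (Subalgebra.toSubmodule (chartAlg W π (fun v i => ((ξ v i : integralClosure W Ω) : Ω)))).FG := by
  refine chartAlg_isDeltaStable_of_isIntegral K hϖ hϖ0 π _ (fun v i => (ξ v i).2) ?_
  intro n γ γ' i
  obtain ⟨P, hPP⟩ := hP n γ γ' i
  refine ⟨P, fun v v' hv hv' => ?_⟩
  obtain ⟨b, hb⟩ := hPP v v' hv hv'
  refine ⟨(b : Ω), b.2, ?_⟩
  have h1 := congrArg (integralClosure W Ω).val hb
  rw [map_sub, comp_aeval_apply (f := Sum.elim (ξ v) (ξ v')) (integralClosure W Ω).val P,
    map_smul] at h1
  have h2 : (fun s => (integralClosure W Ω).val (Sum.elim (ξ v) (ξ v') s)) =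
      Sum.elim (fun i => ((ξ v i : integralClosure W Ω) : Ω))
        (fun i => ((ξ v' i : integralClosure W Ω) : Ω)) := by
    funext s
    rcases s with j | j <;> rfl
  rw [h2] at h1
  exact h1

/-- **(G5-A) over an algebraic closure**: chart coordinates `x` on `J0` with values in
`𝒪 = integralClosure W Ω`, addition congruences in `𝒪`, rational constants; the chart order of
the translated coordinates, inside `V → Ω`, is `Δ`-stable and a finitely generated `W`-module. -/
theorem translateCoord_isDeltaStable_of_integralClosure [Finite V] [Finite Γ] [Finite ι]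
    {J : Type*} [AddCommGroup J]
    (K : Type*) [Field K] [Algebra W K] [IsFractionRing W K] [CharZero K] [Algebra K Ω]
    [IsScalarTower W K Ω] [Algebra.IsAlgebraic K Ω]
    {ϖ : W} (hϖ : ϖ ∈ Ideal.jacobson (⊥ : Ideal W)) (hϖ0 : ϖ ≠ 0)
    (J0 : AddSubgroup J) (x : J0 → ι → integralClosure W Ω) (j : V →+ J)
    (π : V →+ Γ) (c : Γ → J) (c0 : J0) (h1 : ∀ v, j v - c (π v) ∈ J0)
    (a : Γ → Γ → ι → W)
    (h2 : ∀ γ γ', ∃ h : c γ + c γ' - c (γ + γ') - 2 • (c0 : J) ∈ J0,
      ∀ k, x ⟨_, h⟩ k = algebraMap W (integralClosure W Ω) (a γ γ' k))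
    (hadd : ∀ (n : ℕ) (i : ι), ∃ P : MvPolynomial (ι ⊕ ι) W, ∀ u u' : J0,
      ∃ b : integralClosure W Ω,
        x (u + u' + c0) i - aeval (Sum.elim (x u) (x u')) P = ϖ ^ n • b) :
    IsDeltaStable (chartAlg W π
        (fun v i => ((translateCoord J0 x j π c h1 v i : integralClosure W Ω) : Ω))) ∧
      (Subalgebra.toSubmodule (chartAlg W π
        (fun v i => ((translateCoord J0 x j π c h1 v i : integralClosure W Ω) : Ω)))).FG :=
  chartAlg_isDeltaStable_of_integralClosure K hϖ hϖ0 π _
    (translateCoord_hP J0 x j π c c0 h1 a h2 hadd)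

end Fermat.Agent.FF2.R2
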