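import Fermat.Agent.FF2.R2.DeltaClosure
import Fermat.Agent.FF2.R2.Separate

/-!
# FF2 / R2 (MOONSHOT S19, finding #1637): the chart lemma, polynomial-truncation form

`V` a finite abelian group, `π : V →+ Γ` its étale quotient, `ξ : V → ι → B` coordinates on the
fibres of `π` with values in a finite `W`-algebra `B` (`W` Noetherian, `ϖ` in the Jacobson radical).
The **chart order** `chartAlg W π ξ` is the `W`-subalgebra of `V → B` generated by the fibre
idempotents `e_γ = [π v = γ]` and the coordinate functions `v ↦ ξ v i`.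

* `chartAlg_isDeltaStable` : if for every `n`, `γ`, `γ'`, `i` there is a polynomial `P` over `W` in
  the `2 · #ι` variables with `ξ (v + v') i ≡ P (ξ v, ξ v') mod ϖ ^ n` for all `v ∈ π⁻¹ γ`,
  `v' ∈ π⁻¹ γ'` (the truncations of the integral addition series), then the chart order is
  `Δ`-stable.  No completeness, no evaluation of power series.
* `chartAlg_fg` : the chart order is a finitely generated `W`-module.
* `chartAlg_separates` : if `ξ` is injective on the fibres of `π`, the chart order separates points;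
  hence (`chartAlg_span_eq_top`) its image in `V → L` has full rank for any field `L ⊇ B`.
-/

set_option autoImplicit false
set_option linter.unusedSectionVars false

namespace Fermat.Agent.FF2.R2

open MvPolynomial

variable (W : Type*) {B V Γ ι : Type*} [CommRing W] [CommRing B] [Algebra W B]
variable [AddCommGroup V] [AddCommGroup Γ]

/-- The fibre idempotent `e_γ = [π v = γ]`. -/
noncomputable def fibreIdem (π : V →+ Γ) (γ : Γ) : V → B := Set.indicator (π ⁻¹' {γ}) 1

theorem fibreIdem_apply_of_eq {π : V →+ Γ} {γ : Γ} {v : V} (h : π v = γ) :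
    fibreIdem (B := B) π γ v = 1 := by
  unfold fibreIdem
  rw [Set.indicator_of_mem (by simpa using h)]
  rfl

theorem fibreIdem_apply_of_ne {π : V →+ Γ} {γ : Γ} {v : V} (h : π v ≠ γ) :
    fibreIdem (B := B) π γ v = 0 := by
  unfold fibreIdem
  rw [Set.indicator_of_notMem (by simpa using h)]

/-- The `i`-th coordinate function. -/
def coordFun (ξ : V → ι → B) (i : ι) : V → B := fun v => ξ v i

@[simp] theorem coordFun_apply (ξ : V → ι → B) (i : ι) (v : V) : coordFun ξ i v = ξ v i := rfl

/-- **The chart order**: the subalgebra generated by fibre idempotents and coordinates. -/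
noncomputable def chartAlg (π : V →+ Γ) (ξ : V → ι → B) : Subalgebra W (V → B) :=
  Algebra.adjoin W (Set.range (fibreIdem (B := B) π) ∪ Set.range (coordFun ξ))

theorem fibreIdem_mem_chartAlg (π : V →+ Γ) (ξ : V → ι → B) (γ : Γ) :
    fibreIdem π γ ∈ chartAlg W π ξ :=
  Algebra.subset_adjoin (Or.inl ⟨γ, rfl⟩)

theorem coordFun_mem_chartAlg (π : V →+ Γ) (ξ : V → ι → B) (i : ι) :
    coordFun ξ i ∈ chartAlg W π ξ :=
  Algebra.subset_adjoin (Or.inr ⟨i, rfl⟩)

variable {W}

/-- Polynomial expressions in elements of a subalgebra stay in the subalgebra. -/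
theorem aeval_mem_subalgebra {σ A : Type*} [CommRing A] [Algebra W A] (S : Subalgebra W A)
    {x : σ → A} (hx : ∀ k, x k ∈ S) (P : MvPolynomial σ W) : aeval x P ∈ S := by
  have h1 : aeval x P ∈ (aeval x : MvPolynomial σ W →ₐ[W] A).range := ⟨P, rfl⟩
  rw [aeval_range] at h1
  exact Algebra.adjoin_le (by rintro _ ⟨k, rfl⟩; exact hx k) h1

/-- Evaluation at a point commutes with polynomial expressions of functions. -/
theorem aeval_pi_apply {σ X : Type*} (x : σ → X → B) (P : MvPolynomial σ W) (p : X) :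
    (aeval x P) p = aeval (fun k => x k p) P :=
  comp_aeval_apply (f := x) (Pi.evalAlgHom W (fun _ : X => B) p) P

/-- **The chart lemma (`Δ`-stability)**, polynomial-truncation form. -/
theorem chartAlg_isDeltaStable [IsNoetherianRing W] [Module.Finite W B] [Finite V] [Finite Γ]
    {ϖ : W} (hϖ : ϖ ∈ Ideal.jacobson (⊥ : Ideal W)) (π : V →+ Γ) (ξ : V → ι → B)
    (hP : ∀ (n : ℕ) (γ γ' : Γ) (i : ι), ∃ P : MvPolynomial (ι ⊕ ι) W,
      ∀ v v' : V, π v = γ → π v' = γ' →
        ∃ b : B, ξ (v + v') i - aeval (Sum.elim (ξ v) (ξ v')) P = ϖ ^ n • b) :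
    IsDeltaStable (chartAlg W π ξ) := by
  classical
  cases nonempty_fintype Γ
  apply isDeltaStable_adjoin_of_congr hϖ
  rintro f (⟨γ, rfl⟩ | ⟨i, rfl⟩) n
  · -- a fibre idempotent: `Δ e_γ = ∑ e_γ' ⊗ e_(γ - γ')`, exactly
    refine ⟨∑ γ' : Γ, fstHom W B V (fibreIdem π γ') * sndHom W B V (fibreIdem π (γ - γ')),
      ?_, 0, ?_⟩
    · exact Subalgebra.sum_mem _ fun γ' _ => Subalgebra.mul_mem _
        (fstHom_mem_prodAlg (fibreIdem_mem_chartAlg W π ξ γ'))
        (sndHom_mem_prodAlg (fibreIdem_mem_chartAlg W π ξ _))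
    · rw [smul_zero, sub_eq_zero]
      funext p
      rw [Finset.sum_apply, Finset.sum_eq_single (π p.1)]
      · rw [Pi.mul_apply, fstHom_apply, sndHom_apply, deltaHom_apply,
          fibreIdem_apply_of_eq rfl, one_mul]
        by_cases h : π (p.1 + p.2) = γ
        · rw [fibreIdem_apply_of_eq h, fibreIdem_apply_of_eq]
          rw [← h, map_add]; abel
        · rw [fibreIdem_apply_of_ne h, fibreIdem_apply_of_ne]
          intro h'; apply h; rw [map_add, h']; abel
      · intro γ' _ hne
        rw [Pi.mul_apply, fstHom_apply, fibreIdem_apply_of_ne (Ne.symm hne), zero_mul]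
      · intro h; exact absurd (Finset.mem_univ _) h
  · -- a coordinate: congruent mod `ϖ ^ n` to `∑ (e_γ ⊗ e_γ') P_(γ,γ') (ξ ⊗ 1, 1 ⊗ ξ)`
    choose P hP' using hP n
    have hZ : ∀ p : V × V, ∃ b : B, ξ (p.1 + p.2) i -
        aeval (Sum.elim (ξ p.1) (ξ p.2)) (P (π p.1) (π p.2) i) = ϖ ^ n • b :=
      fun p => hP' _ _ i p.1 p.2 rfl rfl
    choose Z hZ' using hZ
    set x : ι ⊕ ι → (V × V → B) :=
      Sum.elim (fun j => fstHom W B V (coordFun ξ j)) (fun j => sndHom W B V (coordFun ξ j))
      with hx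
    have hxmem : ∀ k, x k ∈ prodAlg (chartAlg W π ξ) := by
      rintro (j | j)
      · exact fstHom_mem_prodAlg (coordFun_mem_chartAlg W π ξ j)
      · exact sndHom_mem_prodAlg (coordFun_mem_chartAlg W π ξ j)
    have hxp : ∀ p : V × V, (fun k => x k p) = Sum.elim (ξ p.1) (ξ p.2) := by
      intro p
      funext k
      rcases k with j | j <;> rfl
    refine ⟨∑ γ : Γ, ∑ γ' : Γ, fstHom W B V (fibreIdem π γ) * sndHom W B V (fibreIdem π γ') *
      aeval x (P γ γ' i), ?_, Z, ?_⟩
    · exact Subalgebra.sum_mem _ fun γ _ => Subalgebra.sum_mem _ fun γ' _ =>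
        Subalgebra.mul_mem _ (Subalgebra.mul_mem _
          (fstHom_mem_prodAlg (fibreIdem_mem_chartAlg W π ξ γ))
          (sndHom_mem_prodAlg (fibreIdem_mem_chartAlg W π ξ γ')))
          (aeval_mem_subalgebra _ hxmem _)
    · funext p
      rw [Pi.smul_apply, ← hZ' p, Pi.sub_apply, deltaHom_apply, coordFun_apply]
      congr 1
      rw [Finset.sum_apply, Finset.sum_eq_single (π p.1)]
      · rw [Finset.sum_apply, Finset.sum_eq_single (π p.2)]
        · rw [Pi.mul_apply, Pi.mul_apply, fstHom_apply, sndHom_apply,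
            fibreIdem_apply_of_eq rfl, fibreIdem_apply_of_eq rfl, one_mul, one_mul,
            aeval_pi_apply, hxp]
        · intro γ' _ hne
          rw [Pi.mul_apply, Pi.mul_apply, sndHom_apply, fibreIdem_apply_of_ne (Ne.symm hne),
            mul_zero, zero_mul]
        · intro h; exact absurd (Finset.mem_univ _) h
      · intro γ _ hne
        rw [Finset.sum_apply]
        apply Finset.sum_eq_zero
        intro γ' _
        rw [Pi.mul_apply, Pi.mul_apply, fstHom_apply, fibreIdem_apply_of_ne (Ne.symm hne),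
          zero_mul, zero_mul]
      · intro h; exact absurd (Finset.mem_univ _) h

/-- The chart order is a finitely generated `W`-module. -/
theorem chartAlg_fg [IsNoetherianRing W] [Module.Finite W B] [Finite V]
    (π : V →+ Γ) (ξ : V → ι → B) : (Subalgebra.toSubmodule (chartAlg W π ξ)).FG :=
  IsNoetherian.noetherian _

/-- If the coordinates are injective on every fibre, the chart order separates points. -/
theorem chartAlg_separates [Nontrivial B] (π : V →+ Γ) (ξ : V → ι → B)
    (hinj : ∀ v w : V, π v = π w → ξ v = ξ w → v = w) (v w : V) (hvw : v ≠ w) :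
    ∃ f ∈ chartAlg W π ξ, f v ≠ f w := by
  by_cases hπ : π v = π w
  · have hξ : ξ v ≠ ξ w := fun h => hvw (hinj v w hπ h)
    obtain ⟨i, hi⟩ := Function.ne_iff.mp hξ
    exact ⟨coordFun ξ i, coordFun_mem_chartAlg W π ξ i, hi⟩
  · refine ⟨fibreIdem π (π v), fibreIdem_mem_chartAlg W π ξ _, ?_⟩
    rw [fibreIdem_apply_of_eq rfl, fibreIdem_apply_of_ne (Ne.symm hπ)]
    exact one_ne_zero

end Fermat.Agent.FF2.R2
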