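import Fermat.Agent.FF2.R2.Delta

/-!
# FF2 / R2 (MOONSHOT S19, finding #1637): functoriality of `Δ`-stability in the value ring

A `W`-algebra map `φ : B →ₐ[W] B'` induces `postHom φ : (X → B) →ₐ[W] (X → B')` by
postcomposition.  It commutes with `fstHom`, `sndHom`, `deltaHom`, `negHom`, hence carries
`prodAlg H` onto `prodAlg (H.map (postHom φ))` and `Δ`-stable subalgebras to `Δ`-stable
subalgebras.  Used to move an order from `V → O_L` to `V → Ω` (`Ω` an algebraic closure).
-/

set_option autoImplicit false
set_option linter.unusedSectionVars false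

namespace Fermat.Agent.FF2.R2

variable {W B B' : Type*} [CommRing W] [CommRing B] [CommRing B'] [Algebra W B] [Algebra W B']

/-- Postcomposition with an algebra map, on function algebras. -/
def postHom (φ : B →ₐ[W] B') (X : Type*) : (X → B) →ₐ[W] (X → B') := φ.compLeft X

@[simp] theorem postHom_apply (φ : B →ₐ[W] B') {X : Type*} (f : X → B) (x : X) :
    postHom φ X f x = φ (f x) := rfl

theorem postHom_injective (φ : B →ₐ[W] B') (hφ : Function.Injective φ) (X : Type*) :
    Function.Injective (postHom φ X) := by
  intro f g h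
  funext x
  exact hφ (congrFun h x)

/-- Postcomposition commutes with precomposition. -/
theorem postHom_compHom (φ : B →ₐ[W] B') {X Y : Type*} (ψ : X → Y) (f : Y → B) :
    postHom φ X (compHom W B ψ f) = compHom W B' ψ (postHom φ Y f) := rfl

variable {V : Type*} [AddCommGroup V]

theorem postHom_fstHom (φ : B →ₐ[W] B') (f : V → B) :
    postHom φ (V × V) (fstHom W B V f) = fstHom W B' V (postHom φ V f) := rfl

theorem postHom_sndHom (φ : B →ₐ[W] B') (f : V → B) :
    postHom φ (V × V) (sndHom W B V f) = sndHom W B' V (postHom φ V f) := rfl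

theorem postHom_deltaHom (φ : B →ₐ[W] B') (f : V → B) :
    postHom φ (V × V) (deltaHom W B V f) = deltaHom W B' V (postHom φ V f) := rfl

theorem postHom_negHom (φ : B →ₐ[W] B') (f : V → B) :
    postHom φ V (negHom W B V f) = negHom W B' V (postHom φ V f) := rfl

theorem map_postHom_prodAlg (φ : B →ₐ[W] B') (H : Subalgebra W (V → B)) :
    (prodAlg H).map (postHom φ (V × V)) = prodAlg (H.map (postHom φ V)) := by
  unfold prodAlg
  rw [Algebra.map_sup, Subalgebra.map_map, Subalgebra.map_map, Subalgebra.map_map,
    Subalgebra.map_map]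
  rfl

/-- `Δ`-stability is preserved by a change of the value ring. -/
theorem IsDeltaStable.map_postHom (φ : B →ₐ[W] B') {H : Subalgebra W (V → B)}
    (hH : IsDeltaStable H) : IsDeltaStable (H.map (postHom φ V)) := by
  rintro _ ⟨h, hh, rfl⟩
  have h1 : deltaHom W B' V (postHom φ V h) ∈ (prodAlg H).map (postHom φ (V × V)) :=
    ⟨_, hH h hh, postHom_deltaHom φ h⟩
  rw [map_postHom_prodAlg] at h1
  exact h1

/-- Conversely, `Δ`-stability can be tested after an injective change of the value ring. -/
theorem isDeltaStable_of_map_postHom (φ : B →ₐ[W] B') (hφ : Function.Injective φ)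
    {H : Subalgebra W (V → B)} (hH : IsDeltaStable (H.map (postHom φ V))) : IsDeltaStable H := by
  intro h hh
  have h1 : deltaHom W B' V (postHom φ V h) ∈ prodAlg (H.map (postHom φ V)) :=
    hH _ ⟨h, hh, rfl⟩
  rw [← map_postHom_prodAlg] at h1
  obtain ⟨G, hG, hGe⟩ := h1
  have h2 : G = deltaHom W B V h :=
    postHom_injective φ hφ (V × V) (hGe.trans (postHom_deltaHom φ h).symm)
  exact h2 ▸ hG

/-- Finite generation is preserved. -/
theorem fg_map_postHom (φ : B →ₐ[W] B') {X : Type*} {H : Subalgebra W (X → B)}
    (hH : (Subalgebra.toSubmodule H).FG) :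
    (Subalgebra.toSubmodule (H.map (postHom φ X))).FG := by
  have : Subalgebra.toSubmodule (H.map (postHom φ X)) =
      (Subalgebra.toSubmodule H).map (postHom φ X).toLinearMap := rfl
  rw [this]
  exact hH.map _

/-- Separation of points is preserved by an injective change of the value ring. -/
theorem separates_map_postHom (φ : B →ₐ[W] B') (hφ : Function.Injective φ) {X : Type*}
    {H : Subalgebra W (X → B)} {x y : X} (h : ∃ f ∈ H, f x ≠ f y) :
    ∃ f ∈ H.map (postHom φ X), f x ≠ f y := by
  obtain ⟨f, hf, hxy⟩ := h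
  exact ⟨postHom φ X f, ⟨f, hf, rfl⟩, fun h' => hxy (hφ h')⟩

end Fermat.Agent.FF2.R2
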