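import Fermat.Agent.FF2.R2.ChartPoly
import Fermat.Agent.FF2.R2.DeltaMap

/-!
# FF2 / R2 (MOONSHOT S19, finding #1637): the chart order inside `V → L`

The chart order `chartAlg W π ξ ≤ (V → B)` is transported along an injective `W`-algebra map
`φ : B →ₐ[W] L` (`B = O_L ⊆ L`, or `L` an algebraic closure).  Its image is the chart order of the
transported coordinates, it is `Δ`-stable, finitely generated, separates points and has full
`L`-rank when `L` is a field.
-/

set_option autoImplicit false
set_option linter.unusedSectionVars false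

namespace Fermat.Agent.FF2.R2

variable {W B L V Γ ι : Type*} [CommRing W] [CommRing B] [Algebra W B]
variable [CommRing L] [Algebra W L] [AddCommGroup V] [AddCommGroup Γ]

theorem postHom_fibreIdem (φ : B →ₐ[W] L) (π : V →+ Γ) (γ : Γ) :
    postHom φ V (fibreIdem (B := B) π γ) = fibreIdem (B := L) π γ := by
  funext v
  rw [postHom_apply]
  by_cases h : π v = γ
  · rw [fibreIdem_apply_of_eq h, fibreIdem_apply_of_eq h, map_one]
  · rw [fibreIdem_apply_of_ne h, fibreIdem_apply_of_ne h, map_zero]

theorem postHom_coordFun (φ : B →ₐ[W] L) (ξ : V → ι → B) (i : ι) :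
    postHom φ V (coordFun ξ i) = coordFun (fun v j => φ (ξ v j)) i := rfl

/-- The image of the chart order is the chart order of the transported coordinates. -/
theorem map_postHom_chartAlg (φ : B →ₐ[W] L) (π : V →+ Γ) (ξ : V → ι → B) :
    (chartAlg W π ξ).map (postHom φ V) = chartAlg W π (fun v j => φ (ξ v j)) := by
  unfold chartAlg
  rw [AlgHom.map_adjoin, Set.image_union]
  congr 2
  · ext f
    constructor
    · rintro ⟨_, ⟨γ, rfl⟩, rfl⟩
      exact ⟨γ, (postHom_fibreIdem φ π γ).symm⟩
    · rintro ⟨γ, rfl⟩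
      exact ⟨_, ⟨γ, rfl⟩, postHom_fibreIdem φ π γ⟩
  · ext f
    constructor
    · rintro ⟨_, ⟨i, rfl⟩, rfl⟩
      exact ⟨i, rfl⟩
    · rintro ⟨i, rfl⟩
      exact ⟨_, ⟨i, rfl⟩, rfl⟩

/-- **The chart lemma, transported**: the chart order of coordinates `φ ∘ ξ` with values in `L`
is `Δ`-stable as soon as the coordinates `ξ` take their values in a finite `W`-algebra `B` and
the polynomial-truncation hypothesis holds there. -/
theorem chartAlg_isDeltaStable_of_map [IsNoetherianRing W] [Module.Finite W B] [Finite V]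
    [Finite Γ] {ϖ : W} (hϖ : ϖ ∈ Ideal.jacobson (⊥ : Ideal W)) (φ : B →ₐ[W] L) (π : V →+ Γ)
    (ξ : V → ι → B)
    (hP : ∀ (n : ℕ) (γ γ' : Γ) (i : ι), ∃ P : MvPolynomial (ι ⊕ ι) W,
      ∀ v v' : V, π v = γ → π v' = γ' →
        ∃ b : B, ξ (v + v') i - MvPolynomial.aeval (Sum.elim (ξ v) (ξ v')) P = ϖ ^ n • b) :
    IsDeltaStable (chartAlg W π (fun v j => φ (ξ v j))) := by
  rw [← map_postHom_chartAlg]
  exact (chartAlg_isDeltaStable hϖ π ξ hP).map_postHom φ

/-- The transported chart order is a finitely generated `W`-module. -/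
theorem chartAlg_fg_of_map [IsNoetherianRing W] [Module.Finite W B] [Finite V]
    (φ : B →ₐ[W] L) (π : V →+ Γ) (ξ : V → ι → B) :
    (Subalgebra.toSubmodule (chartAlg W π (fun v j => φ (ξ v j)))).FG := by
  rw [← map_postHom_chartAlg]
  exact fg_map_postHom φ (chartAlg_fg π ξ)

/-- **Full rank**: over a field, the chart order of coordinates injective on the fibres spans all
functions. -/
theorem chartAlg_span_eq_top {L : Type*} [Field L] [Algebra W L] [Finite V] (π : V →+ Γ)
    (ξ : V → ι → L) (hinj : ∀ v w : V, π v = π w → ξ v = ξ w → v = w) :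
    Submodule.span L ((chartAlg W π ξ : Subalgebra W (V → L)) : Set (V → L)) = ⊤ :=
  span_eq_top_of_separates _ (chartAlg_separates π ξ hinj)

end Fermat.Agent.FF2.R2
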