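import Mathlib

/-!
# FF2 / R2 (MOONSHOT S19, finding #1637): the Krull closure lemma

Over a Noetherian ring `W` with an ideal `I` contained in the Jacobson radical, every submodule `M`
of a finitely generated module `N` is closed for the `I`-adic topology: an element of `N` which is
congruent modulo `I ^ n • N` to an element of `M` for every `n` lies in `M`.

This replaces completeness and convergence of power series in the chart lemma: the translate
`Δ ξ` of a coordinate function is congruent modulo every power of the uniformizer to a polynomial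
in the coordinates.
-/

set_option autoImplicit false

namespace Fermat.Agent.FF2.R2

variable {W : Type*} [CommRing W] [IsNoetherianRing W]
variable {N : Type*} [AddCommGroup N] [Module W N] [Module.Finite W N]

/-- **Krull closure**: submodules of a finite module over a Noetherian ring are closed for the
`I`-adic topology, `I` inside the Jacobson radical. -/
theorem mem_of_forall_exists_sub_mem_pow_smul {I : Ideal W} (hI : I ≤ Ideal.jacobson ⊥)
    (M : Submodule W N) (x : N)
    (h : ∀ n : ℕ, ∃ y ∈ M, x - y ∈ (I ^ n • ⊤ : Submodule W N)) : x ∈ M := by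
  have key : M.mkQ x ∈ (⨅ i : ℕ, I ^ i • ⊤ : Submodule W (N ⧸ M)) := by
    rw [Submodule.mem_iInf]
    intro n
    obtain ⟨y, hy, hxy⟩ := h n
    have h1 : M.mkQ x = M.mkQ (x - y) := by
      have h0 : M.mkQ y = 0 := (Submodule.Quotient.mk_eq_zero M).mpr hy
      rw [map_sub, h0, sub_zero]
    rw [h1]
    have h2 : M.mkQ (x - y) ∈ (I ^ n • ⊤ : Submodule W N).map M.mkQ := ⟨_, hxy, rfl⟩
    rw [Submodule.map_smul''] at h2
    exact Submodule.smul_mono le_rfl le_top h2
  rw [Ideal.iInf_pow_smul_eq_bot_of_le_jacobson I hI, Submodule.mem_bot] at key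
  exact (Submodule.Quotient.mk_eq_zero M).mp key

/-- Element form of the Krull closure lemma, for a principal ideal. -/
theorem mem_of_forall_exists_sub_eq_pow_smul {ϖ : W} (hϖ : ϖ ∈ Ideal.jacobson (⊥ : Ideal W))
    (M : Submodule W N) (x : N)
    (h : ∀ n : ℕ, ∃ y ∈ M, ∃ z : N, x - y = ϖ ^ n • z) : x ∈ M := by
  apply mem_of_forall_exists_sub_mem_pow_smul (I := Ideal.span {ϖ})
    ((Ideal.span_singleton_le_iff_mem _).mpr hϖ) M x
  intro n
  obtain ⟨y, hy, z, hz⟩ := h n
  refine ⟨y, hy, ?_⟩
  rw [hz, Ideal.span_singleton_pow]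
  exact Submodule.smul_mem_smul (Ideal.mem_span_singleton_self _) Submodule.mem_top

/-- Local form: a non-unit of a Noetherian local ring. -/
theorem mem_of_forall_exists_sub_eq_pow_smul_of_isLocalRing [IsLocalRing W] {ϖ : W}
    (hϖ : ¬ IsUnit ϖ) (M : Submodule W N) (x : N)
    (h : ∀ n : ℕ, ∃ y ∈ M, ∃ z : N, x - y = ϖ ^ n • z) : x ∈ M :=
  mem_of_forall_exists_sub_eq_pow_smul
    (IsLocalRing.maximalIdeal_le_jacobson _ ((IsLocalRing.mem_maximalIdeal ϖ).mpr hϖ)) M x h

end Fermat.Agent.FF2.R2
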