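import Fermat.Agent.FF2.R2.Delta
import Fermat.Agent.FF2.R2.Closure

/-!
# FF2 / R2 (MOONSHOT S19, finding #1637): `Δ`-stability by successive approximation

`W` Noetherian, `ϖ` in its Jacobson radical, `B` a finite `W`-algebra, `V` finite.  A subalgebra
`adjoin W s` of `V → B` is `Δ`-stable as soon as, for every generator `f ∈ s` and every `n`,
`Δ f` is congruent modulo `ϖ ^ n` to an element of `prodAlg (adjoin W s)`.
No completeness, no convergence: `prodAlg` is a submodule of the finite module `V × V → B`,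
hence closed (Krull).
-/

set_option autoImplicit false
set_option linter.unusedSectionVars false

namespace Fermat.Agent.FF2.R2

variable {W B V : Type*} [CommRing W] [CommRing B] [Algebra W B] [AddCommGroup V]
variable [IsNoetherianRing W] [Module.Finite W B] [Finite V]

/-- Membership in `prodAlg H` can be checked modulo all powers of `ϖ`. -/
theorem mem_prodAlg_of_congr {ϖ : W} (hϖ : ϖ ∈ Ideal.jacobson (⊥ : Ideal W))
    (H : Subalgebra W (V → B)) (F : V × V → B)
    (h : ∀ n : ℕ, ∃ G ∈ prodAlg H, ∃ Z : V × V → B, F - G = ϖ ^ n • Z) : F ∈ prodAlg H :=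
  mem_of_forall_exists_sub_eq_pow_smul hϖ (Subalgebra.toSubmodule (prodAlg H)) F h

/-- Membership in a subalgebra of `V → B` can be checked modulo all powers of `ϖ`. -/
theorem mem_subalgebra_of_congr {X : Type*} [Finite X] {ϖ : W}
    (hϖ : ϖ ∈ Ideal.jacobson (⊥ : Ideal W))
    (H : Subalgebra W (X → B)) (F : X → B)
    (h : ∀ n : ℕ, ∃ G ∈ H, ∃ Z : X → B, F - G = ϖ ^ n • Z) : F ∈ H :=
  mem_of_forall_exists_sub_eq_pow_smul hϖ (Subalgebra.toSubmodule H) F h

/-- **`Δ`-stability by successive approximation, on generators.** -/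
theorem isDeltaStable_adjoin_of_congr {ϖ : W} (hϖ : ϖ ∈ Ideal.jacobson (⊥ : Ideal W))
    {s : Set (V → B)}
    (h : ∀ f ∈ s, ∀ n : ℕ, ∃ G ∈ prodAlg (Algebra.adjoin W s), ∃ Z : V × V → B,
      deltaHom W B V f - G = ϖ ^ n • Z) :
    IsDeltaStable (Algebra.adjoin W s) :=
  isDeltaStable_adjoin fun f hf => mem_prodAlg_of_congr hϖ _ _ (h f hf)

end Fermat.Agent.FF2.R2
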